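import Mathlib.RingTheory.RegularLocalRing.Defs
import Mathlib.LinearAlgebra.Matrix.Charpoly.LinearMap

/-!
# Equality from equality modulo a prime, and the exponent of a congruence module

A map into a torsion free module which is injective modulo `π` is injective; and if a
point modulo `π ^ m` of an algebra acting faithfully on a module with `g` generators has kernel
`I`, then `π ^ j` multiplies the module into `I` times itself only if `m ≤ j g`.
-/

set_option autoImplicit false

noncomputable section

namespace Fermat.Agent.Two.Patch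

open IsLocalRing

variable {O : Type} [CommRing O] [IsDomain O] [IsDiscreteValuationRing O]

/-- A map injective modulo `π` into a torsion free module is injective. -/
theorem injective_of_modulo {S T : Type*} [AddCommGroup S] [Module O S] [Module.Finite O S]
    [AddCommGroup T] [Module O T] [Module.IsTorsionFree O T] (φ : S →ₗ[O] T) {π : O}
    (hπ : Irreducible π) (h : ∀ s, (∃ t, φ s = π • t) → ∃ s', s = π • s') :
    Function.Injective φ := by
  rw [← LinearMap.ker_eq_bot]
  refine Submodule.eq_bot_of_le_smul_of_le_jacobson_bot (Ideal.span {π}) _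
    (IsNoetherian.noetherian _) (fun s hs => ?_) ?_
  · obtain ⟨s', rfl⟩ := h s ⟨0, by rw [LinearMap.mem_ker.1 hs, smul_zero]⟩
    rw [LinearMap.mem_ker, map_smul, smul_eq_zero] at hs
    exact Submodule.smul_mem_smul (Ideal.mem_span_singleton_self π)
      (LinearMap.mem_ker.2 (hs.resolve_left hπ.ne_zero))
  · rw [IsLocalRing.jacobson_eq_maximalIdeal _ bot_ne_top, Ideal.span_le, Set.singleton_subset_iff]
    exact (IsLocalRing.mem_maximalIdeal π).2 hπ.not_isUnit

/-- **The exponent of the congruence module.** -/
theorem le_mul_of_smul_le {R Q : Type*} [CommRing R] [Algebra O R] [AddCommGroup Q] [Module R Q]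
    {g : ℕ} (w : Fin g → Q) (hw : Submodule.span R (Set.range w) = ⊤)
    (hfaith : ∀ a : R, (∀ q : Q, a • q = 0) → a = 0) {π : O} (hπ : Irreducible π) {m : ℕ}
    (x : R →+* O ⧸ Ideal.span {π ^ m})
    (hx : ∀ b : O, x (algebraMap O R b) = Ideal.Quotient.mk _ b) {j : ℕ}
    (hj : ∀ q : Q, algebraMap O R (π ^ j) • q ∈ RingHom.ker x • (⊤ : Submodule R Q)) :
    m ≤ j * g := by
  classical
  have : Module.Finite R Q := ⟨⟨Finset.univ.image w, by simpa using hw⟩⟩
  set f : Module.End R Q := algebraMap R (Module.End R Q) (algebraMap O R (π ^ j))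
  obtain ⟨p, hmonic, hdeg, hcoeff, hp⟩ :=
    LinearMap.exists_monic_and_natDegree_eq_and_coeff_mem_pow_and_aeval_eq_zero R f
      (RingHom.ker x) (by rintro _ ⟨q, rfl⟩; exact hj q)
  have hzero : p.eval (algebraMap O R (π ^ j)) = 0 := hfaith _ fun q => by
    have h := LinearMap.congr_fun hp q
    rw [Polynomial.aeval_algebraMap_apply, Polynomial.coe_aeval_eq_eval,
      Module.algebraMap_end_apply] at h
    exact h
  have h1 := congrArg x hzero
  rw [map_zero, Polynomial.eval_eq_sum_range, map_sum, Finset.sum_range_succ,
    hmonic.coeff_natDegree, one_mul, Finset.sum_eq_zero, zero_add, ← map_pow, hx,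
    Ideal.Quotient.eq_zero_iff_mem, Ideal.mem_span_singleton, ← pow_mul,
    pow_dvd_pow_iff hπ.ne_zero hπ.not_isUnit] at h1
  · refine h1.trans (Nat.mul_le_mul_left j ?_)
    rw [hdeg]
    refine le_trans (le_of_eq (congrArg Submodule.spanFinrank hw).symm) ?_
    exact (Submodule.spanFinrank_span_le_ncard_of_finite (Set.finite_range w)).trans
      (by rw [← Set.image_univ]; exact (Set.ncard_image_le).trans (by simp))
  · intro i hi
    have hc : p.coeff i ∈ RingHom.ker x :=
      Ideal.pow_le_self (Nat.sub_ne_zero_of_lt (Finset.mem_range.1 hi)) (hcoeff i)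
    rw [map_mul, RingHom.mem_ker.1 hc, zero_mul]

end Fermat.Agent.Two.Patch
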