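import Mathlib.RingTheory.RegularLocalRing.Defs
import Mathlib.LinearAlgebra.Matrix.Charpoly.Coeff

/-!
# A point congruent to the given one

Among the minimal primes of a torsion free algebra of rank at most `c` over a discrete valuation
ring, one is congruent to a given point modulo `π ^ N` up to a factor `c ^ 2` in the exponent.
-/

set_option autoImplicit false

noncomputable section

namespace Fermat.Agent.Two.Patch

open IsLocalRing

variable {O : Type} [CommRing O] [IsDomain O] [IsDiscreteValuationRing O]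

/-- Among the minimal primes of a torsion free algebra of rank at most `c` over a discrete
valuation ring, one is congruent to a given point modulo `π ^ N`. -/
theorem exists_prime_congr {R : Type} [CommRing R] [Algebra O R] [Module.Finite O R]
    (hfree : Function.Injective (algebraMap O R)) (htf : Module.IsTorsionFree O R)
    {c : ℕ} (hc : 0 < c) (hrank : Module.finrank O R ≤ c) {π : O} (hπ : Irreducible π) {N m : ℕ}
    (hm : c * c * m ≤ N) (hm0 : 0 < m) (hnil : ∀ a : R, IsNilpotent a → a ^ c = 0)
    (x : R →+* O ⧸ Ideal.span {π ^ N}) :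
    ∃ P : Ideal R, P.IsPrime ∧ (∀ b : O, algebraMap O R b ∈ P → b = 0) ∧
      ∀ a ∈ P, ∀ b : O, x a = Ideal.Quotient.mk _ b → π ^ m ∣ b := by
  classical
  have : Nontrivial R := nontrivial_of_ne (algebraMap O R 1) (algebraMap O R 0)
    (hfree.ne one_ne_zero)
  have : IsNoetherianRing R := IsNoetherianRing.of_finite O R
  have hfin : (minimalPrimes R).Finite := minimalPrimes.finite_of_isNoetherianRing R
  have : Fintype (minimalPrimes R) := hfin.fintype
  have hO : ∀ P : minimalPrimes R, ∀ b : O, algebraMap O R b ∈ (P : Ideal R) → b = 0 := by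
    intro P b hb
    by_contra hb0
    refine Set.disjoint_left.1 (Ideal.disjoint_nonZeroDivisors_of_mem_minimalPrimes P.2) hb ?_
    rw [SetLike.mem_coe, mem_nonZeroDivisors_iff_right]
    intro z hz
    rw [mul_comm, ← Algebra.smul_def] at hz
    exact (smul_eq_zero.1 hz).resolve_left hb0
  by_contra! hcon
  have hP : ∀ P : minimalPrimes R, ∃ a ∈ (P : Ideal R), ∃ b : O,
      x a = Ideal.Quotient.mk _ b ∧ ¬ π ^ m ∣ b := fun P =>
    hcon P P.2.1.1 fun b hb => hO P b hb
  choose a ha b hb hbd using hP
  -- at most `c` minimal primes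
  have hcard : Fintype.card (minimalPrimes R) ≤ c := by
    have hsep : ∀ P : minimalPrimes R, ∃ e : R, e ∉ (P : Ideal R) ∧
        ∀ Q, Q ≠ P → e ∈ (Q : Ideal R) := fun P => by
      have : ∀ Q : minimalPrimes R, Q ≠ P → ∃ e ∈ (Q : Ideal R), e ∉ (P : Ideal R) := fun Q hQ => by
        by_contra! h
        exact hQ (Subtype.ext (le_antisymm h (P.2.2 Q.2.1 h)))
      choose e he he' using this
      refine ⟨∏ Q : {Q // Q ≠ P}, e Q.1 Q.2, fun h => ?_, fun Q hQ => ?_⟩
      · obtain ⟨Q, -, hQ⟩ := (P.2.1.1.prod_mem_iff).1 h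
        exact he' Q.1 Q.2 hQ
      · exact Ideal.prod_mem _ (Finset.mem_univ (⟨Q, hQ⟩ : {Q // Q ≠ P})) (he Q hQ)
    choose e he he' using hsep
    refine le_trans (LinearIndependent.fintype_card_le_finrank (R := O) (b := e) ?_) hrank
    refine Fintype.linearIndependent_iff.2 fun w hw P => ?_
    refine hO P _ ?_
    have h1 : w P • e P ∈ (P : Ideal R) := by
      rw [← Finset.add_sum_erase _ _ (Finset.mem_univ P), add_eq_zero_iff_eq_neg] at hw
      rw [hw]
      refine neg_mem (sum_mem fun Q hQ => ?_)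
      rw [Algebra.smul_def]
      exact Ideal.mul_mem_left _ _ (he' Q P (Finset.ne_of_mem_erase hQ).symm)
    rw [Algebra.smul_def] at h1
    exact (P.2.1.1.mem_or_mem h1).resolve_right (he P)
  -- the product of the elements is nilpotent
  have hnilp : IsNilpotent (∏ P, a P) := by
    rw [nilpotent_iff_mem_prime]
    intro Q hQ
    obtain ⟨P, hPQ, hle⟩ := Ideal.exists_minimalPrimes_le (I := ⊥) (J := Q) bot_le
    have hmem : (P : Ideal R) ∈ minimalPrimes R := hPQ
    exact hle (Ideal.prod_mem P (Finset.mem_univ (⟨P, hmem⟩ : minimalPrimes R)) (ha ⟨P, hmem⟩))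
  have h := congrArg x (hnil _ hnilp)
  rw [map_pow, map_prod, map_zero, Finset.prod_congr rfl fun P _ => hb P, ← map_prod, ← map_pow,
    Ideal.Quotient.eq_zero_iff_mem, Ideal.mem_span_singleton] at h
  have hb0 : ∀ P, b P ≠ 0 := fun P h0 => hbd P (h0 ▸ dvd_zero _)
  choose v u hv using fun P => IsDiscreteValuationRing.eq_unit_mul_pow_irreducible (hb0 P) hπ
  have hvm : ∀ P, v P < m := fun P => by
    by_contra hge
    exact hbd P (hv P ▸ Dvd.dvd.mul_left (pow_dvd_pow π (not_lt.1 hge)) _)
  have hprod : (∏ P, b P) ^ c = (∏ P, (u P : O)) ^ c * π ^ ((∑ P, v P) * c) := by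
    rw [Finset.prod_congr rfl fun P _ => hv P, Finset.prod_mul_distrib,
      Finset.prod_pow_eq_pow_sum, mul_pow, ← pow_mul]
  have hlt : (∑ P, v P) * c < N := by
    have h1 : (∑ P, v P) ≤ Fintype.card (minimalPrimes R) * (m - 1) := by
      have := Finset.sum_le_card_nsmul Finset.univ v (m - 1) fun P _ => Nat.le_pred_of_lt (hvm P)
      simpa using this
    calc (∑ P, v P) * c ≤ c * (m - 1) * c := by
          exact Nat.mul_le_mul_right c (h1.trans (Nat.mul_le_mul_right _ hcard))
      _ < c * m * c := by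
          exact Nat.mul_lt_mul_of_pos_right (Nat.mul_lt_mul_of_pos_left (by omega) hc) hc
      _ ≤ N := by rwa [Nat.mul_right_comm]
  rw [hprod, IsUnit.dvd_mul_left (IsUnit.pow c (IsUnit.prod_univ_iff.2 fun P => (u P).isUnit))] at h
  exact absurd ((pow_dvd_pow_iff hπ.ne_zero hπ.not_isUnit).1 h) (not_le.2 hlt)

end Fermat.Agent.Two.Patch
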